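import Mathlib
import Fermat.Agent.H62.Cheb2.Interfaces
import Fermat.Agent.H20.DS.Interfaces

/-!
# P-CHEB phase 2, row 473 (CH2-ADAPT)

Adapter from the prelude-language Chebotarev density statement
`Fermat.Agent.H62.Cheb2.ChebotarevDensityStatement` to the exact consumer shape of P-DS,
`Fermat.Agent.H20.DS.ChebDensityStatement`.
-/

set_option autoImplicit false
set_option linter.style.haveILetI false

open scoped Classical

namespace Fermat.Agent.H47.Cheb2Adapt

/-- fibres of a surjective homomorphism of finite groups: densities of preimages. -/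
theorem ncard_preimage_div_card {H G : Type} [Group H] [Group G] [Finite H] [Finite G]
    (f : H →* G) (hf : Function.Surjective f) (C : Set G) :
    (((f ⁻¹' C).ncard : ℝ) / (Nat.card H : ℝ)) = (Nat.card C : ℝ) / (Nat.card G : ℝ) := by
  haveI : Fintype H := Fintype.ofFinite H
  haveI : Fintype G := Fintype.ofFinite G
  -- all fibres have the same cardinality `k`
  set k : ℕ := (Finset.univ.filter fun h : H => f h = 1).card with hk
  have hfib : ∀ c : G, (Finset.univ.filter fun h : H => f h = c).card = k := by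
    intro c
    exact MonoidHom.card_fiber_eq_of_mem_range f (hf c) (hf 1)
  have hkpos : 0 < k := by
    rw [hk, Finset.card_pos]
    exact ⟨1, by simp⟩
  have h1 : (f ⁻¹' C).ncard = C.ncard * k := by
    have e1 : (f ⁻¹' C).ncard = (Finset.univ.filter fun h : H => f h ∈ C).card := by
      rw [← Set.ncard_coe_finset]
      congr 1
      ext x
      simp
    rw [e1]
    have e2 := Finset.card_eq_sum_card_fiberwise (f := f)
      (s := Finset.univ.filter fun h : H => f h ∈ C) (t := C.toFinset)
      (fun x hx => by simpa using hx)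
    rw [e2]
    have e3 : ∀ c ∈ C.toFinset,
        ((Finset.univ.filter fun h : H => f h ∈ C).filter fun h => f h = c).card = k := by
      intro c hc
      rw [← hfib c]
      congr 1
      ext x
      simp only [Finset.mem_filter, Finset.mem_univ, true_and]
      constructor
      · rintro ⟨-, h⟩
        exact h
      · intro h
        refine ⟨?_, h⟩
        rw [h]
        simpa using hc
    rw [Finset.sum_congr rfl e3, Finset.sum_const, smul_eq_mul, Set.ncard_eq_toFinset_card']
  have h2 : Nat.card H = Nat.card G * k := by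
    rw [Nat.card_eq_fintype_card, Nat.card_eq_fintype_card]
    have e2 := Finset.card_eq_sum_card_fiberwise (f := f)
      (s := (Finset.univ : Finset H)) (t := (Finset.univ : Finset G))
      (fun x _ => Finset.mem_univ _)
    rw [Finset.card_univ] at e2
    rw [e2, Finset.sum_congr rfl (fun c _ => hfib c), Finset.sum_const, smul_eq_mul,
      Finset.card_univ]
  rw [h1, h2, Nat.card_coe_set_eq]
  push_cast
  have hk' : (k : ℝ) ≠ 0 := by exact_mod_cast hkpos.ne'
  have hG : (Nat.card G : ℝ) ≠ 0 := by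
    have : 0 < Nat.card G := Nat.card_pos
    exact_mod_cast this.ne'
  field_simp

/-- summability of `p ↦ [P p] p^(-s)` over the primes, `s > 1` -/
theorem summable_primes_ite (P : Nat.Primes → Prop) {s : ℝ} (hs : 1 < s) :
    Summable fun p : Nat.Primes => if P p then ((p : ℕ) : ℝ) ^ (-s) else 0 := by
  have h0 : Summable fun n : ℕ => (n : ℝ) ^ (-s) :=
    Real.summable_nat_rpow.2 (by linarith)
  have h1 : Summable fun p : Nat.Primes => ((p : ℕ) : ℝ) ^ (-s) :=
    h0.comp_injective Nat.Primes.coe_nat_injective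
  refine Summable.of_nonneg_of_le (fun p => ?_) (fun p => ?_) h1
  · split_ifs
    · exact Real.rpow_nonneg (Nat.cast_nonneg _) _
    · exact le_rfl
  · split_ifs
    · exact le_rfl
    · exact Real.rpow_nonneg (Nat.cast_nonneg _) _

/-- the prime sum of `H20.DS` as a sum over `Nat.Primes` -/
theorem primeSum_eq_tsum_primes (P : ℕ → Prop) (s : ℝ) :
    Fermat.Agent.H20.DS.primeSum P s =
      ∑' p : Nat.Primes, if P (p : ℕ) then ((p : ℕ) : ℝ) ^ (-s) else 0 := by
  unfold Fermat.Agent.H20.DS.primeSum
  have hsupp : Function.support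
      (fun p : ℕ => Set.indicator {p : ℕ | p.Prime ∧ P p} (fun p : ℕ => (p : ℝ) ^ (-s)) p) ⊆
      {p : ℕ | p.Prime} := by
    intro n hn
    rw [Function.mem_support] at hn
    by_contra hcon
    apply hn
    rw [Set.indicator_of_notMem]
    rintro ⟨h, -⟩
    exact hcon h
  rw [← tsum_subtype_eq_of_support_subset hsupp]
  refine tsum_congr fun p => ?_
  by_cases hP : P (p : ℕ)
  · rw [if_pos hP, Set.indicator_of_mem]
    exact ⟨p.2, hP⟩
  · rw [if_neg hP, Set.indicator_of_notMem]
    rintro ⟨-, h⟩
    exact hP h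

/-- **CH2-ADAPT**: the P-DS consumer shape of Chebotarev's density theorem. -/
theorem chebDensity_DS (h : Fermat.Agent.H62.Cheb2.ChebotarevDensityStatement) :
    Fermat.Agent.H20.DS.ChebDensityStatement := by
  intro G _ _ π hπ hfin C _ δ hδ
  obtain ⟨L, hL, hLπ⟩ := hfin
  haveI : FiniteDimensional ℚ L := hL
  have hGal : IsGalois ℚ (AlgebraicClosure ℚ) :=
    (inferInstance : @IsGalois ℚ _ (AlgebraicClosure ℚ) _ (AlgebraicClosure.instAlgebra ℚ))
  haveI hN : Normal ℚ (AlgebraicClosure ℚ) := hGal.to_normal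
  -- the normal closure of `L`
  let K : IntermediateField ℚ (AlgebraicClosure ℚ) :=
    IntermediateField.normalClosure ℚ L (AlgebraicClosure ℚ)
  haveI hKfd : FiniteDimensional ℚ K := normalClosure.is_finiteDimensional ℚ L (AlgebraicClosure ℚ)
  haveI hKn : Normal ℚ K := normalClosure.normal ℚ L (AlgebraicClosure ℚ)
  haveI hKg : IsGalois ℚ K := ⟨⟩
  have hLK : L ≤ K := IntermediateField.le_normalClosure L
  -- the restriction map and the induced `π̄`
  let r : (AlgebraicClosure ℚ ≃ₐ[ℚ] AlgebraicClosure ℚ) →* (K ≃ₐ[ℚ] K) :=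
    AlgEquiv.restrictNormalHom K
  have hr : Function.Surjective r := AlgEquiv.restrictNormalHom_surjective (AlgebraicClosure ℚ)
  have hker : r.ker ≤ π.ker := by
    intro σ hσ
    rw [MonoidHom.mem_ker] at hσ ⊢
    apply hLπ σ
    intro x hx
    have h1 := AlgEquiv.restrictNormal_commutes σ K ⟨x, hLK hx⟩
    have h2 : σ.restrictNormal K = 1 := hσ
    rw [h2] at h1
    exact h1.symm
  let πbar : (K ≃ₐ[ℚ] K) →* G := MonoidHom.liftOfSurjective r hr ⟨π, hker⟩
  have hπbar : ∀ σ, πbar (r σ) = π σ := fun σ =>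
    MonoidHom.liftOfRightInverse_comp_apply r _ _ ⟨π, hker⟩ σ
  have hπbar_surj : Function.Surjective πbar := by
    intro g
    obtain ⟨σ, rfl⟩ := hπ g
    exact ⟨r σ, hπbar σ⟩
  haveI : Finite (K ≃ₐ[ℚ] K) := inferInstance
  -- apply the density statement
  obtain ⟨δ0, hδ0, hmain⟩ := h K (πbar ⁻¹' C) ∅ δ hδ
  refine ⟨1 + δ0, by linarith, fun s hs1 hs2 => ?_⟩
  have hm := hmain s hs1 hs2
  rw [ncard_preimage_div_card πbar hπbar_surj C] at hm
  refine hm.trans ?_
  rw [primeSum_eq_tsum_primes]
  refine Summable.tsum_le_tsum (fun p => ?_) (summable_primes_ite _ hs1)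
    (summable_primes_ite (fun p : Nat.Primes => Fermat.Agent.H20.DS.HasFrobIn π C (p : ℕ)) hs1)
  by_cases hp : p ∈ Fermat.Agent.H62.Cheb2.frobPrimesBar K (πbar ⁻¹' C) ∅
  · rw [if_pos hp]
    obtain ⟨-, A, hA, -, τ, hτ, hτC⟩ := hp
    have hF : Fermat.Agent.H20.DS.HasFrobIn π C (p : ℕ) := by
      refine ⟨A, hA, τ, hτ, ?_⟩
      have : πbar (r τ) ∈ C := hτC
      rwa [hπbar] at this
    rw [if_pos hF]
  · rw [if_neg hp]
    split_ifs
    · exact Real.rpow_nonneg (Nat.cast_nonneg _) _
    · exact le_rfl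

end Fermat.Agent.H47.Cheb2Adapt
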